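/-
S56, WALL W4, CASE C, BLOCK S: ASSEMBLY (helper85).
`SStructProp p` from the three top leaves DICH, NOA, ORD of `S/Defs.lean`.
-/
import Fermat.Agent.S56.W4.C.S.Defs

set_option autoImplicit false
set_option linter.unusedSectionVars false

namespace Fermat.Agent.S56.SS

open Fermat.Agent.F4 ExtCitation Fermat.Agent.FFL Fermat.Agent.FlatMod

local notation "Kb" => AlgebraicClosure ℚ
local notation "GK" => (AlgebraicClosure ℚ ≃ₐ[ℚ] AlgebraicClosure ℚ)

variable (p : ℕ) [Fact p.Prime]

/-- the residue characteristic: `p = 0` in `k` if the determinant is cyclotomic. -/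
theorem ss_char_zero {k : Type} [Field k] (ρbar : ResidualGaloisRep k)
    (hdet : (GaloisRepAdic.ofResidualGaloisRep ρbar).DetIsCyclotomic p) : (p : k) = 0 := by
  have h := hdet.1
  rw [IsLocalRing.maximalIdeal_eq_bot, Ideal.mem_bot] at h
  exact h

/-- **Block S**, from its three top leaves. -/
theorem sStructProp_of_leaves (hD : DichProp p) (hN : NoFpEigenProp p) (hO : OrdProp p) :
    SStructProp p := by
  intro k _ _ ρbar hp2 hdet hsplit hflat haug
  rcases hD k ρbar (ss_char_zero p ρbar hdet) hsplit with ⟨v, hv⟩ | ⟨⟨s⟩⟩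
  · exact (hN k ρbar hp2 hdet hflat haug v hv).elim
  · exact hO k ρbar hp2 (ss_char_zero p ρbar hdet) hflat haug s

end Fermat.Agent.S56.SS
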