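/-
S56, WALL W4, CASE C, BLOCK S, leaf DICH (helper1): the dichotomy without the tameness
hypothesis, from WILD + FPC + TAME.

Proof: if no element `ρbar σ ≠ 1` (`σ` in inertia) has `p`-power order: TAME.  Otherwise the
elements of `p`-power order of `ρbar(I)` form a nontrivial `p`-group `S` (WILD), normalised by
`ρbar(D)`; its fixed space `V^S` is nonzero (a `p`-group acting on a set of `p`-power order with a
fixed point has another one), is not `V` (`S ≠ 1`), so it is a line, stable under `D`; FPC.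
-/
import Fermat.Agent.S56.W4.C.S.Defs
import Fermat.Agent.F4.Dict.PlaceSurj

set_option autoImplicit false
set_option linter.style.haveILetI false

namespace Fermat.Agent.S56.SS

open Fermat.Agent.F4 ExtCitation Fermat.Agent.FFL Fermat.Agent.FlatMod

local notation "Kb" => AlgebraicClosure ℚ
local notation "GK" => (AlgebraicClosure ℚ ≃ₐ[ℚ] AlgebraicClosure ℚ)

/-- inertia is contained in the decomposition group. -/
theorem dich_inertia_le_decomp {P : ValuationSubring Kb} {σ : GK}
    (hσ : σ ∈ P.inertiaSubgroupIn ℚ) : σ ∈ P.decompositionSubgroup ℚ := by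
  obtain ⟨x, -, rfl⟩ := Subgroup.mem_map.mp hσ
  exact x.2

/-- inertia is normalised by the decomposition group. -/
theorem dich_conj_mem_inertia {P : ValuationSubring Kb} {δ σ : GK}
    (hδ : δ ∈ P.decompositionSubgroup ℚ) (hσ : σ ∈ P.inertiaSubgroupIn ℚ) :
    δ * σ * δ⁻¹ ∈ P.inertiaSubgroupIn ℚ := by
  obtain ⟨x, hx, rfl⟩ := Subgroup.mem_map.mp hσ
  refine Subgroup.mem_map.mpr ⟨(⟨δ, hδ⟩ : P.decompositionSubgroup ℚ) * x *
    (⟨δ, hδ⟩ : P.decompositionSubgroup ℚ)⁻¹, ?_, rfl⟩
  have hn : (P.inertiaSubgroup ℚ).Normal := by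
    unfold ValuationSubring.inertiaSubgroup
    exact MonoidHom.normal_ker _
  exact hn.conj_mem x hx _

/-- the cardinality of a finite vector space of positive dimension over a finite field of
characteristic `p` is divisible by `p`. -/
theorem dich_dvd_card {p : ℕ} [Fact p.Prime] {k : Type} [Field k] [Finite k]
    (hpk : (p : k) = 0) {V : Type} [AddCommGroup V] [Module k V] [Module.Finite k V]
    (hV : 0 < Module.finrank k V) : p ∣ Nat.card V := by
  classical
  haveI : Fintype k := Fintype.ofFinite k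
  haveI : CharP k p := by
    obtain ⟨q, hq⟩ := CharP.exists k
    haveI := hq
    have hdvd : q ∣ p := (CharP.cast_eq_zero_iff k q p).mp hpk
    have hqprime : q.Prime := by
      rcases CharP.char_is_prime_or_zero k q with h | h
      · exact h
      · exfalso
        subst h
        exact (Fact.out : p.Prime).ne_zero (Nat.eq_zero_of_zero_dvd hdvd)
    have : q = p := (Nat.prime_dvd_prime_iff_eq hqprime Fact.out).mp hdvd
    subst this
    exact hq
  have hk : p ∣ Nat.card k := by
    obtain ⟨n, hp, hn⟩ := FiniteField.card k p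
    rw [Nat.card_eq_fintype_card, hn]
    exact dvd_pow_self p n.ne_zero
  have hcard : Nat.card V = Nat.card k ^ Module.finrank k V := Module.natCard_eq_pow_finrank
  rw [hcard]
  exact dvd_trans hk (dvd_pow_self _ hV.ne')

variable (p : ℕ) [Fact p.Prime]

/-- **DICH**. -/
theorem dichProp_of (hW : WildSubProp) (hF : FpCharProp p) (hT : TameDichProp p) :
    DichProp p := by
  intro k _ _ ρbar hpk hsplit
  classical
  by_cases htame : ∀ σ ∈ Ip p, ∀ a : ℕ, (ρbar.ρ σ) ^ p ^ a = 1 → ρbar.ρ σ = 1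
  · exact hT k ρbar hpk hsplit htame
  left
  push Not at htame
  obtain ⟨σ₀, hσ₀, a₀, ha₀, hne₀⟩ := htame
  -- the representation with values in the units
  let χ : GK →* (Module.End k ρbar.V)ˣ := ρbar.ρ.toHomUnits
  have hχ : ∀ σ : GK, ((χ σ : (Module.End k ρbar.V)ˣ) : Module.End k ρbar.V) = ρbar.ρ σ :=
    fun σ => rfl
  have hfin : ∃ L : IntermediateField ℚ Kb, FiniteDimensional ℚ L ∧
      ∀ σ : GK, (∀ x ∈ L, σ x = x) → χ σ = 1 := by
    obtain ⟨L, hL, h1⟩ := ρbar.factorsThroughFiniteLevel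
    refine ⟨L, hL, fun σ hσ => Units.ext ?_⟩
    rw [hχ, h1 σ hσ]; rfl
  have hlies : (Pp p).LiesOverPrime p := primeLocalPlace_liesOverPrime (pPrime p)
  obtain ⟨S, hS⟩ := hW p Fact.out (Pp p) hlies (Module.End k ρbar.V)ˣ χ hfin
  -- `S` is a `p`-group
  have hSp : IsPGroup p S := by
    intro g
    obtain ⟨a, ha⟩ := ((hS g.1).1 g.2).1
    exact ⟨a, Subtype.ext (by simpa using ha)⟩
  -- `χ σ₀ ∈ S`
  have hu₀ : χ σ₀ ∈ S := by
    refine (hS _).2 ⟨⟨a₀, Units.ext ?_⟩, σ₀, hσ₀, rfl⟩
    rw [Units.val_pow_eq_pow_val, hχ, ha₀]; rfl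
  -- `S` is normalised by the image of the decomposition group
  have hconj : ∀ δ ∈ Dp p, ∀ s ∈ S, (χ δ)⁻¹ * s * χ δ ∈ S := by
    intro δ hδ s hs
    obtain ⟨⟨a, ha⟩, σ, hσ, rfl⟩ := (hS s).1 hs
    refine (hS _).2 ⟨⟨a, ?_⟩, δ⁻¹ * σ * δ, ?_, ?_⟩
    · have : ((χ δ)⁻¹ * χ σ * χ δ) ^ p ^ a = (χ δ)⁻¹ * (χ σ) ^ p ^ a * χ δ := by
        have h := conj_pow (a := (χ δ)⁻¹) (b := χ σ) (i := p ^ a)
        rwa [inv_inv] at h
      rw [this, ha, mul_one, inv_mul_cancel]
    · have h := dich_conj_mem_inertia (Subgroup.inv_mem _ hδ) hσ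
      rwa [inv_inv] at h
    · rw [map_mul, map_mul, map_inv]
  -- the fixed space
  let W : Submodule k ρbar.V :=
    { carrier := {v | ∀ s ∈ S, ((s : (Module.End k ρbar.V)ˣ) : Module.End k ρbar.V) v = v}
      add_mem' := fun {x y} hx hy s hs => by rw [map_add, hx s hs, hy s hs]
      zero_mem' := fun s _ => map_zero _
      smul_mem' := fun c x hx s hs => by rw [map_smul, hx s hs] }
  have hWmem : ∀ v : ρbar.V, v ∈ W ↔
      ∀ s ∈ S, ((s : (Module.End k ρbar.V)ˣ) : Module.End k ρbar.V) v = v := fun v => Iff.rfl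
  -- stable under the decomposition group
  have hWD : ∀ δ ∈ Dp p, ∀ v ∈ W, ρbar.ρ δ v ∈ W := by
    intro δ hδ v hv s hs
    have h1 := hv _ (hconj δ hδ s hs)
    have h2 : ((χ δ : (Module.End k ρbar.V)ˣ) : Module.End k ρbar.V)
        ((((χ δ)⁻¹ * s * χ δ : (Module.End k ρbar.V)ˣ) : Module.End k ρbar.V) v) =
        ((s : (Module.End k ρbar.V)ˣ) : Module.End k ρbar.V) (ρbar.ρ δ v) := by
      rw [← Module.End.mul_apply, ← Units.val_mul, mul_assoc, mul_inv_cancel_left,
        Units.val_mul, Module.End.mul_apply, hχ]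
    rw [← h2, h1, hχ]
  -- nonzero
  have hVpos : 0 < Module.finrank k ρbar.V := by rw [ρbar.finrank_eq]; norm_num
  haveI : Finite ρbar.V := Module.finite_of_finite k
  have hdvd : p ∣ Nat.card ρbar.V := dich_dvd_card hpk hVpos
  letI act : MulAction S ρbar.V :=
    { smul := fun s v => ((s.1 : (Module.End k ρbar.V)ˣ) : Module.End k ρbar.V) v
      one_smul := fun v => rfl
      mul_smul := fun s t v => rfl }
  have hsmul : ∀ (s : S) (v : ρbar.V),
      s • v = ((s.1 : (Module.End k ρbar.V)ˣ) : Module.End k ρbar.V) v := fun _ _ => rfl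
  have h0 : (0 : ρbar.V) ∈ MulAction.fixedPoints S ρbar.V := fun s => by
    rw [hsmul, map_zero]
  obtain ⟨v, hv, hv0⟩ := hSp.exists_fixed_point_of_prime_dvd_card_of_fixed_point ρbar.V hdvd h0
  have hvW : v ∈ W := fun s hs => hv ⟨s, hs⟩
  have hv0' : v ≠ 0 := fun h => hv0 h.symm
  -- not everything
  have hWtop : W ≠ ⊤ := by
    intro htop
    apply hne₀
    refine LinearMap.ext fun x => ?_
    have hx : x ∈ W := by rw [htop]; trivial
    have := hx _ hu₀
    rw [hχ] at this
    rw [this]; rfl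
  -- a line
  have hlt : Module.finrank k W < 2 := by
    have := Submodule.finrank_lt hWtop
    rwa [ρbar.finrank_eq] at this
  have hspan : W = Submodule.span k {v} := by
    symm
    refine Submodule.eq_of_le_of_finrank_le
      ((Submodule.span_singleton_le_iff_mem v W).mpr hvW) ?_
    rw [finrank_span_singleton hv0']
    omega
  refine ⟨v, hF k ρbar hpk v hv0' fun σ hσ => ?_⟩
  have h := hWD σ hσ v hvW
  rw [hspan, Submodule.mem_span_singleton] at h
  obtain ⟨c, hc⟩ := h
  exact ⟨c, hc.symm⟩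

end Fermat.Agent.S56.SS
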