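/-
S56, WALL W4, CASE C, BLOCK S, leaf FIX (helper85): a flat Galois module without inertia
coinvariants has no nonzero inertia-fixed point.

Proof: a fixed point `w₁` of prime order `ℓ` gives the embedding `ι : ℤ/ℓ → W`; the functions
`f ∘ ι`, `f` in the `R'`-span of a Hopf order, are comultiplication-closed, contain `p ^ N` times
the indicator functions (the indicator of a fixed point is inertia-equivariant: `spanB_full`), and
satisfy `f 1 - f 0 ∈ 𝔪 ∩ R' = p R'` (`augI ⊆ redKer`, `unrProp`).  This contradicts `coreProp`.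
-/
import Fermat.Agent.S56.W4.C.S.Defs
import Fermat.Agent.Lib.FFL.Main

set_option autoImplicit false

namespace Fermat.Agent.S56.SS

open Fermat.Agent.F4 ExtCitation Fermat.Agent.FFL Fermat.Agent.FlatMod

local notation "Kb" => AlgebraicClosure ℚ
local notation "GK" => (AlgebraicClosure ℚ ≃ₐ[ℚ] AlgebraicClosure ℚ)

/-- the action of a Hopf order commutes with multiples. -/
theorem fix_act_nsmul {p : ℕ} {W : Type*} [AddCommGroup W] {act : GK → W → W}
    (O : HopfOrder p W act) (σ : GK) (m : ℕ) (w : W) : act σ (m • w) = m • act σ w := by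
  induction m with
  | zero => rw [zero_smul, zero_smul, O.act_zero]
  | succ m ih => rw [succ_nsmul, succ_nsmul, O.act_add, ih]

/-- the action of a Hopf order is injective. -/
theorem fix_act_injective {p : ℕ} {W : Type*} [AddCommGroup W] {act : GK → W → W}
    (O : HopfOrder p W act) (σ : GK) : Function.Injective (act σ) := by
  intro x y hxy
  have h1 : act σ⁻¹ (act σ x) = act σ⁻¹ (act σ y) := by rw [hxy]
  rw [← hopfOrder_act_mul O, ← hopfOrder_act_mul O, inv_mul_cancel, hopfOrder_act_one O,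
    hopfOrder_act_one O] at h1
  exact h1

/-- **FIX**. -/
theorem noFixedProp (p : ℕ) (P : ValuationSubring Kb) : NoFixedProp p P := by
  intro hp hp2 hP W _ act hflat haug w hw
  classical
  by_contra hw0
  have : Fact p.Prime := ⟨hp⟩
  obtain ⟨O⟩ := nonempty_hopfOrder_of_isFlat hflat
  have hfin : Finite W := O.finite_W
  -- a fixed point of prime order
  obtain ⟨m, ℓ, hℓ, hℓw, hmin⟩ := ma_exists_prime_order (⊥ : AddSubgroup W) (x := w)
    (by rwa [AddSubgroup.mem_bot])
  have : Fact ℓ.Prime := ⟨hℓ⟩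
  have : NeZero ℓ := ⟨hℓ.ne_zero⟩
  set w₁ : W := m • w with hw₁
  have hℓw' : ℓ • w₁ = 0 := by rwa [AddSubgroup.mem_bot] at hℓw
  have hw₁fix : ∀ σ ∈ P.inertiaSubgroupIn ℚ, act σ w₁ = w₁ := fun σ hσ => by
    rw [hw₁, fix_act_nsmul O, hw σ hσ]
  -- the embedding of `ℤ/ℓ`
  let ι : ZMod ℓ →+ W := ZMod.lift ℓ ⟨zmultiplesHom W w₁, by
    show ((ℓ : ℕ) : ℤ) • w₁ = 0
    rw [natCast_zsmul]; exact hℓw'⟩
  have hιval : ∀ c : ZMod ℓ, ι c = c.val • w₁ := by
    intro c
    have h1 : ι ((c.val : ℤ) : ZMod ℓ) = zmultiplesHom W w₁ (c.val : ℤ) :=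
      ZMod.lift_coe ℓ _ _
    have h2 : ((c.val : ℤ) : ZMod ℓ) = c := by
      rw [Int.cast_natCast, ZMod.natCast_zmod_val]
    rw [h2] at h1
    rw [h1]
    show ((c.val : ℕ) : ℤ) • w₁ = c.val • w₁
    rw [natCast_zsmul]
  have hι1 : ι 1 = w₁ := by
    rw [hιval, ZMod.val_one, one_smul]
  have hιker : ∀ c : ZMod ℓ, ι c = 0 → c = 0 := by
    intro c hc
    by_contra hc0
    have hpos : 0 < c.val := Nat.pos_of_ne_zero (fun h => hc0 ((ZMod.val_eq_zero c).1 h))
    have := hmin c.val hpos (ZMod.val_lt c)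
    apply this
    rw [AddSubgroup.mem_bot, ← hιval]
    exact hc
  have hιinj : Function.Injective ι := (injective_iff_map_eq_zero ι).2 hιker
  have hιfix : ∀ σ ∈ P.inertiaSubgroupIn ℚ, ∀ c : ZMod ℓ, act σ (ι c) = ι c := by
    intro σ hσ c
    rw [hιval, fix_act_nsmul O, hw₁fix σ hσ]
  -- the family of functions on `ℤ/ℓ`
  let A : Set (ZMod ℓ → Kb) := {f | ∃ g ∈ spanB P O, f = fun c => g (ι c)}
  refine coreProp hp hp2 P hP ℓ A ?_ ?_ ?_
  · -- comultiplication
    rintro f ⟨g, hg, rfl⟩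
    obtain ⟨n, g', h', hg', hh', hgh⟩ := spanB_comulClosed P O g hg
    refine ⟨n, fun i c => g' i (ι c), fun i c => h' i (ι c), fun i => ⟨g' i, hg' i, rfl⟩,
      fun i => ⟨h' i, hh' i, rfl⟩, fun c c' => ?_⟩
    show g (ι (c + c')) = _
    rw [map_add, hgh]
  · -- indicator functions
    have h1 : ∀ c : ZMod ℓ, ∃ N : ℕ, ∀ n, N ≤ n →
        (fun x : W => (p : Kb) ^ n * (if x = ι c then (1 : Kb) else 0)) ∈ spanB P O := by
      intro c
      refine spanB_full P hP (dvdProp hp hP) O (fun x => if x = ι c then (1 : Kb) else 0) ?_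
      intro σ hσ x
      by_cases hx : x = ι c
      · rw [if_pos hx, if_pos (by rw [hx]; exact hιfix σ hσ c), map_one]
      · have hx' : act σ x ≠ ι c := by
          intro h
          apply hx
          apply fix_act_injective O σ
          rw [h, hιfix σ hσ c]
        rw [if_neg hx, if_neg hx', map_zero]
    choose N hN using h1
    refine ⟨Finset.univ.sup N, fun c => ⟨_, hN c _ (Finset.le_sup (Finset.mem_univ c)), ?_⟩⟩
    funext c'
    by_cases hc : c' = c
    · rw [if_pos hc, if_pos (by rw [hc]), mul_one]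
    · rw [if_neg hc, if_neg (fun h => hc (hιinj h)), mul_zero]
  · -- congruence modulo `p`
    rintro f ⟨g, hg, rfl⟩
    show (g (ι 1) - g (ι 0)) / (p : Kb) ∈ P
    rw [hι1, map_zero]
    have hred : w₁ ∈ redKer P (O.alg : Set (W → Kb)) := augI_subset_redKer O hP (haug w₁)
    refine unrProp p hp P hP _ (spanB_sub_mem_nonunits P O hg hred) (fun σ hσ => ?_)
    rw [map_sub, ← spanB_equiv P O hg σ hσ, ← spanB_equiv P O hg σ hσ, hw₁fix σ hσ, O.act_zero]

end Fermat.Agent.S56.SS
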