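/-
S56, WALL W4, CASE C, BLOCK S, leaf FPC (helper7): if the line `k v` is stable under the
decomposition group at `p`, inertia acts on it through a character with values in `𝔽_p`.

Proof: the character `χ : D_p → kˣ` of the line has finite level and values of order prime to
`p`; `tame_inertia_hom` gives `χ (φ τ φ⁻¹) = χ τ ^ p` for a Frobenius `φ ∈ D_p` and `τ` in
inertia, and `kˣ` is commutative.
-/
import Fermat.Agent.S56.W4.C.S.Defs
import Fermat.Agent.Lib.TameInertia.Local
import Fermat.Agent.Lib.FrobDensity.Bridge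
import Fermat.Agent.F4.Dict.PlaceSurj

set_option autoImplicit false

namespace Fermat.Agent.S56.SS

open Fermat.Agent.F4 ExtCitation Fermat.Agent.FrobExists Fermat.Agent.KFin

attribute [local instance] isAlgebraic_Qb isAlgClosure_Qb

local notation "Kb" => AlgebraicClosure ℚ
local notation "GK" => (AlgebraicClosure ℚ ≃ₐ[ℚ] AlgebraicClosure ℚ)

/-- The order of a unit of a finite field of characteristic `p` is prime to `p`. -/
lemma fpc_orderOf_coprime (p : ℕ) [Fact p.Prime] {k : Type} [Field k] [Finite k]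
    (hpk : (p : k) = 0) (u : kˣ) : (orderOf u).Coprime p := by
  classical
  haveI : Fintype k := Fintype.ofFinite k
  haveI : CharP k p := (CharP.charP_iff_prime_eq_zero (Fact.out : p.Prime)).mpr hpk
  obtain ⟨n, -, hn⟩ := FiniteField.card k p
  have h1 : orderOf u ∣ Fintype.card kˣ := orderOf_dvd_card
  rw [Fintype.card_units, hn] at h1
  have hpos : 0 < (p : ℕ) ^ (n : ℕ) := pow_pos (Fact.out : p.Prime).pos _
  have h2 : ((p : ℕ) ^ (n : ℕ) - 1).Coprime p := by
    rw [Nat.coprime_comm, Nat.Prime.coprime_iff_not_dvd (Fact.out : p.Prime)]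
    intro h
    have h3 : p ∣ (p : ℕ) ^ (n : ℕ) := dvd_pow_self p n.ne_zero
    have h4 : p ∣ (p : ℕ) ^ (n : ℕ) - ((p : ℕ) ^ (n : ℕ) - 1) := Nat.dvd_sub h3 h
    have h5 : (p : ℕ) ^ (n : ℕ) - ((p : ℕ) ^ (n : ℕ) - 1) = 1 := by omega
    rw [h5] at h4
    exact (Fact.out : p.Prime).one_lt.ne' (Nat.dvd_one.mp h4)
  exact Nat.Coprime.coprime_dvd_left h1 h2

/-- **FPC**. -/
theorem fpCharProp (p : ℕ) [Fact p.Prime] : FpCharProp p := by
  classical
  intro k _ _ ρbar hpk v hv hD
  refine ⟨hv, ?_⟩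
  have hp : p.Prime := Fact.out
  -- the eigenvalue on the line
  have huniq : ∀ c c' : k, c • v = c' • v → c = c' := by
    intro c c' h
    have h1 : (c - c') • v = 0 := by rw [sub_smul, h, sub_self]
    rcases smul_eq_zero.mp h1 with h2 | h2
    · exact sub_eq_zero.mp h2
    · exact absurd h2 hv
  let c : ↥(Dp p) → k := fun σ => (hD σ.1 σ.2).choose
  have hc : ∀ σ : ↥(Dp p), ρbar.ρ σ.1 v = c σ • v := fun σ => (hD σ.1 σ.2).choose_spec
  let χ' : ↥(Dp p) →* k :=
    { toFun := c
      map_one' := by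
        apply huniq
        rw [← hc, one_smul]
        show ρbar.ρ 1 v = v
        rw [map_one]
        rfl
      map_mul' := by
        intro σ τ
        apply huniq
        rw [← hc]
        show ρbar.ρ (σ.1 * τ.1) v = _
        rw [map_mul, Module.End.mul_apply, hc τ, map_smul, hc σ, smul_smul, mul_comm] }
  let χ : ↥(Dp p) →* kˣ := χ'.toHomUnits
  have hχ : ∀ σ : ↥(Dp p), ((χ σ : kˣ) : k) = c σ := fun σ => rfl
  -- finite Galois level
  obtain ⟨L0, hfd0, hL0⟩ := ρbar.factorsThroughFiniteLevel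
  let L : IntermediateField ℚ Kb := IntermediateField.normalClosure ℚ L0 Kb
  have hfd : FiniteDimensional ℚ L := by
    haveI := hfd0
    exact normalClosure.is_finiteDimensional ℚ L0 Kb
  haveI hGal : IsGalois ℚ Kb := isGalois_Qb
  have hnormal : Normal ℚ L := normalClosure.normal ℚ L0 Kb
  have hgal : IsGalois ℚ L := ⟨⟩
  have hnor : L.fixingSubgroup.Normal := (InfiniteGalois.normal_iff_isGalois L).mpr hgal
  have hle : L0 ≤ L := IntermediateField.le_normalClosure L0
  have hker : ∀ γ : ↥(Dp p), (Dp p).subtype γ ∈ L.fixingSubgroup → χ γ = 1 := by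
    intro γ hγ
    have h1 : ρbar.ρ γ.1 = 1 := by
      apply hL0
      intro x hx
      exact (IntermediateField.mem_fixingSubgroup_iff L γ.1).mp hγ x (hle hx)
    apply Units.ext
    rw [hχ, Units.val_one]
    apply huniq
    rw [← hc, h1, one_smul]
    rfl
  have hA : (Pp p).LiesOverPrime p := primeLocalPlace_liesOverPrime (pPrime p)
  have hcop : ∀ γ : ↥(Dp p), (Dp p).subtype γ ∈ (Pp p).inertiaSubgroupIn ℚ →
      (orderOf (χ γ)).Coprime p := fun γ _ => fpc_orderOf_coprime p hpk (χ γ)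
  obtain ⟨-, hfrob⟩ := Fermat.Agent.TameInertia.tame_inertia_hom (Dp p).subtype χ L hfd hnor hker
    p hp (Pp p) hA hcop
  obtain ⟨φ, hφ, -, -⟩ := Fermat.Agent.FrobBridge.exists_isFrobeniusAt_of_liesOver (Pp p) p hp hA
  have hφD : φ ∈ Dp p := hφ.mem_decompositionSubgroup
  intro τ hτ
  have hτD : τ ∈ Dp p := by
    obtain ⟨d, -, rfl⟩ := hτ
    exact d.2
  have h1 := hfrob ⟨φ, hφD⟩ hφ ⟨τ, hτD⟩ hτ
  rw [map_mul, map_mul, map_inv, mul_comm, inv_mul_cancel_left] at h1
  refine ⟨c ⟨τ, hτD⟩, ?_, hc ⟨τ, hτD⟩⟩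
  have h2 := congrArg (fun u : kˣ => (u : k)) h1
  simp only [Units.val_pow_eq_pow_val] at h2
  rw [hχ] at h2
  exact h2.symm

end Fermat.Agent.S56.SS
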