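/-
S56, WALL W4, CASE C, BLOCK S, leaf NOA (helper85): a flat `ρbar` without inertia coinvariants and
with cyclotomic determinant has no eigenvector of inertia with `𝔽_p`-valued character.

Proof: `N = ℤ v` has order `p` and is inertia-stable; SUB gives an `I`-order on it; by
`OrderPProp` inertia acts on `v` trivially (against FIX) or through the cyclotomic character; in
the latter case it acts trivially on `V / k v` (determinant), so `augI ⊆ k v ≠ V`.
-/
import Fermat.Agent.S56.W4.C.S.Main
import Fermat.Agent.S56.W3.TW.Lies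

set_option autoImplicit false
set_option linter.unusedSectionVars false

namespace Fermat.Agent.S56.SS

open Fermat.Agent.F4 ExtCitation Fermat.Agent.FFL Fermat.Agent.FlatMod

local notation "Kb" => AlgebraicClosure ℚ
local notation "GK" => (AlgebraicClosure ℚ ≃ₐ[ℚ] AlgebraicClosure ℚ)

variable (p : ℕ) [Fact p.Prime]

/-- the place at `p` lies over `p`. -/
theorem noa_liesOver : (Pp p).LiesOverPrime p :=
  Fermat.Agent.S56.primeLocalPlace_liesOverPrime (pPrime p)

/-- the solutions of `c ^ p = c` in a field of characteristic `p` are the natural numbers. -/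
theorem noa_exists_natCast {k : Type*} [Field k] (hchar : (p : k) = 0) {c : k}
    (hc : c ^ p = c) : ∃ a : ℕ, (a : k) = c := by
  have : CharP k p := (CharP.charP_iff_prime_eq_zero Fact.out).2 hchar
  have h1 : c ∈ (⊥ : Subfield k) := (Subfield.mem_bot_iff_pow_eq_self k p).2 hc
  obtain ⟨n, hn⟩ := (mem_bot_iff_intCast p k).1 h1
  have hp0 : (0 : ℤ) < p := by exact_mod_cast (Fact.out : p.Prime).pos
  refine ⟨(n % p).toNat, ?_⟩
  have h2 : ((n % p).toNat : ℤ) = n % p := Int.toNat_of_nonneg (Int.emod_nonneg n hp0.ne')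
  have h3 : (((n % p).toNat : ℕ) : k) = ((n % p : ℤ) : k) := by
    rw [← Int.cast_natCast (R := k), h2]
  rw [h3, ← hn]
  have h4 : n = n % p + p * (n / p) := (Int.emod_add_mul_ediv n p).symm
  conv_rhs => rw [h4]
  rw [Int.cast_add, Int.cast_mul, Int.cast_natCast, hchar, zero_mul, add_zero]

/-- every automorphism acts on `μ_p` as a power map. -/
theorem noa_exists_pow (σ : GK) :
    ∃ a : ℕ, ∀ μ : Kb, μ ^ p = 1 → σ μ = μ ^ a := by
  have : NeZero p := ⟨(Fact.out : p.Prime).ne_zero⟩
  have : NeZero ((p : ℕ) : Kb) := ⟨Nat.cast_ne_zero.mpr (Fact.out : p.Prime).ne_zero⟩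
  obtain ⟨ζ, hζ⟩ := HasEnoughRootsOfUnity.exists_primitiveRoot Kb p
  have hσζ : (σ ζ) ^ p = 1 := by rw [← map_pow, hζ.pow_eq_one, map_one]
  obtain ⟨a, -, ha⟩ := hζ.eq_pow_of_pow_eq_one hσζ
  refine ⟨a, fun μ hμ => ?_⟩
  obtain ⟨j, -, rfl⟩ := hζ.eq_pow_of_pow_eq_one hμ
  rw [map_pow, ← ha, ← pow_mul, ← pow_mul, mul_comm]

variable {k : Type} [Field k]

/-- `T v = α v` and `det T = α ≠ 0` on a plane: `T - 1` has values in `k v`. -/
theorem noa_sub_mem_span {V : Type*} [AddCommGroup V] [Module k V]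
    (hV : Module.finrank k V = 2) (T : Module.End k V) {v : V} (hv : v ≠ 0) {α : k}
    (hα : α ≠ 0) (hT : T v = α • v) (hdet : LinearMap.det T = α) (w : V) :
    T w - w ∈ Submodule.span k {v} := by
  classical
  by_cases hw : w ∈ Submodule.span k {v}
  · obtain ⟨x, rfl⟩ := Submodule.mem_span_singleton.1 hw
    rw [map_smul, hT]
    exact Submodule.sub_mem _ (Submodule.smul_mem _ _ (Submodule.smul_mem _ _
      (Submodule.mem_span_singleton_self v))) hw
  · have hli : LinearIndependent k ![v, w] := by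
      rw [LinearIndependent.pair_iff' hv]
      intro a ha
      exact hw (Submodule.mem_span_singleton.2 ⟨a, ha⟩)
    let b : Module.Basis (Fin 2) k V :=
      basisOfLinearIndependentOfCardEqFinrank hli (by rw [Fintype.card_fin, hV])
    have hb0 : b 0 = v := by
      show basisOfLinearIndependentOfCardEqFinrank hli _ 0 = v
      rw [coe_basisOfLinearIndependentOfCardEqFinrank]; rfl
    have hb1 : b 1 = w := by
      show basisOfLinearIndependentOfCardEqFinrank hli _ 1 = w
      rw [coe_basisOfLinearIndependentOfCardEqFinrank]; rfl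
    have hrepr0 : b.repr (T v) = Finsupp.single 0 α := by
      rw [hT, map_smul, ← hb0, b.repr_self, Finsupp.smul_single, smul_eq_mul, mul_one]
    have hdet2 : LinearMap.det T = (LinearMap.toMatrix b b T).det :=
      (LinearMap.det_toMatrix b T).symm
    rw [Matrix.det_fin_two] at hdet2
    have e00 : LinearMap.toMatrix b b T 0 0 = α := by
      rw [LinearMap.toMatrix_apply, hb0, hrepr0, Finsupp.single_eq_same]
    have e10 : LinearMap.toMatrix b b T 1 0 = 0 := by
      rw [LinearMap.toMatrix_apply, hb0, hrepr0, Finsupp.single_apply, if_neg (by decide)]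
    have e11 : LinearMap.toMatrix b b T 1 1 = b.repr (T w) 1 := by
      rw [LinearMap.toMatrix_apply, hb1]
    rw [e00, e10, e11, mul_zero, sub_zero, hdet] at hdet2
    have hy : b.repr (T w) 1 = 1 := by
      have h1 : α * b.repr (T w) 1 = α * 1 := by rw [mul_one]; exact hdet2.symm
      exact mul_left_cancel₀ hα h1
    have hsum : T w = b.repr (T w) 0 • v + b.repr (T w) 1 • w := by
      conv_lhs => rw [← b.sum_repr (T w)]
      rw [Fin.sum_univ_two, hb0, hb1]
    rw [hy, one_smul] at hsum
    rw [hsum, add_sub_cancel_right]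
    exact Submodule.smul_mem _ _ (Submodule.mem_span_singleton_self v)

/-- **NOA**. -/
theorem noFpEigenProp_of (hOP : OrderPProp p (Pp p)) (hFix : NoFixedProp p (Pp p))
    (hSub : SubOrdProp p (Pp p)) : NoFpEigenProp p := by
  intro k _ _ ρbar hp2 hdet hflat haug v hv
  classical
  obtain ⟨hv0, hveig⟩ := hv
  have hp : p.Prime := Fact.out
  have hP := noa_liesOver p
  have hchar : (p : k) = 0 := ss_char_zero p ρbar hdet
  have hfinV : Finite ρbar.V := Module.finite_of_finite k
  -- natural eigenvalues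
  have heig : ∀ σ ∈ Ip p, ∃ a : ℕ, ρbar.ρ σ v = a • v := by
    intro σ hσ
    obtain ⟨c, hc, hcv⟩ := hveig σ hσ
    obtain ⟨a, rfl⟩ := noa_exists_natCast p hchar hc
    exact ⟨a, by rw [hcv, Nat.cast_smul_eq_nsmul]⟩
  set N : AddSubgroup ρbar.V := AddSubgroup.zmultiples v with hN
  have hstab : ∀ σ ∈ Ip p, ∀ n ∈ N, ρbar.ρ σ n ∈ N := by
    intro σ hσ n hn
    obtain ⟨j, rfl⟩ := AddSubgroup.mem_zmultiples_iff.1 hn
    obtain ⟨a, ha⟩ := heig σ hσ
    rw [map_zsmul, ha]
    exact N.zsmul_mem (N.nsmul_mem (AddSubgroup.mem_zmultiples v) a) j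
  let actN : GK → N → N := fun σ n =>
    if h : σ ∈ Ip p then ⟨ρbar.ρ σ n, hstab σ h n n.2⟩ else n
  have hactN : ∀ σ ∈ Ip p, ∀ n : N, ((actN σ n : N) : ρbar.V) = ρbar.ρ σ (n : ρbar.V) := by
    intro σ hσ n
    simp only [actN, dif_pos hσ]
  obtain ⟨O, -⟩ := hSub hp hP ρbar.V (actOf ρbar) hflat N actN hactN
  have hIA : IsIAction (Pp p) actN := by
    refine ⟨fun σ hσ w w' => ?_, fun w => ?_, fun σ hσ τ hτ w => ?_⟩
    · apply Subtype.ext
      rw [AddSubgroup.coe_add, hactN σ hσ, hactN σ hσ, hactN σ hσ, AddSubgroup.coe_add, map_add]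
    · apply Subtype.ext
      rw [hactN 1 (one_mem _), map_one, Module.End.one_apply]
    · apply Subtype.ext
      rw [hactN _ (mul_mem hσ hτ), hactN σ hσ, hactN τ hτ, map_mul, Module.End.mul_apply]
  have hpv : p • v = 0 := by rw [← Nat.cast_smul_eq_nsmul k, hchar, zero_smul]
  have hcard : Nat.card N = p := by
    rw [hN, Nat.card_zmultiples, addOrderOf_eq_prime hpv hv0]
  rcases hOP hp hp2 hP N actN O hIA hcard with h1 | h2
  · -- trivial action: FIX
    apply hv0
    refine hFix hp hp2 hP ρbar.V (actOf ρbar) hflat haug v (fun σ hσ => ?_)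
    have h3 := congrArg Subtype.val (h1 σ hσ ⟨v, AddSubgroup.mem_zmultiples v⟩)
    rw [hactN σ hσ] at h3
    exact h3
  · -- cyclotomic action
    have hsub : ∀ σ ∈ Ip p, ∀ w : ρbar.V, ρbar.ρ σ w - w ∈ Submodule.span k {v} := by
      intro σ hσ w
      obtain ⟨a, ha⟩ := noa_exists_pow p σ
      have h4 := congrArg Subtype.val (h2 σ hσ a ha ⟨v, AddSubgroup.mem_zmultiples v⟩)
      rw [hactN σ hσ] at h4
      have h5 : ρbar.ρ σ v = (a : k) • v := by
        rw [Nat.cast_smul_eq_nsmul]
        exact h4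
      have hd := hdet.2 1 σ a (by simpa using ha)
      have hd' : LinearMap.det (ρbar.ρ σ) = (a : k) := by
        have h0 : ((p ^ 1 : ℕ) : k) = 0 := by rw [pow_one]; exact hchar
        rw [h0, Ideal.span_singleton_eq_bot.2 rfl, Ideal.mem_bot, sub_eq_zero] at hd
        exact hd
      have hα : (a : k) ≠ 0 := by
        rw [← hd']
        have hu : IsUnit (ρbar.ρ σ) :=
          ⟨⟨ρbar.ρ σ, ρbar.ρ σ⁻¹, by rw [← map_mul, mul_inv_cancel, map_one],
            by rw [← map_mul, inv_mul_cancel, map_one]⟩, rfl⟩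
        exact (LinearMap.isUnit_det _ hu).ne_zero
      exact noa_sub_mem_span ρbar.finrank_eq (ρbar.ρ σ) hv0 hα h5 hd' w
    have hle : augI (Pp p) (actOf ρbar) ≤ (Submodule.span k {v}).toAddSubgroup := by
      unfold augI augOn
      rw [AddSubgroup.closure_le]
      rintro _ ⟨σ, hσ, w, -, rfl⟩
      exact hsub σ hσ w
    have htop : Submodule.span k {v} = ⊤ := by
      rw [eq_top_iff]
      intro w _
      exact hle (haug w)
    have h6 : Module.finrank k (Submodule.span k {v}) = 1 := finrank_span_singleton hv0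
    rw [htop, finrank_top, ρbar.finrank_eq] at h6
    exact absurd h6 (by norm_num)

end Fermat.Agent.S56.SS
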