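/-
S56, WALL W4, CASE C, BLOCK S, leaf ORD: its two sub-leaves (sub-architect helper85).  FIXED.

* ORD-M (`OrdModuleProp`): pure linear algebra over `k`: the simple inertia-module
  `W = 𝔽_p b₀ + 𝔽_p α b₀` of order `p²` (`α = ψ τ`, `b₀ = b 0`), with the relation
  `τ² b₀ + n b₀ = t τ b₀` (`t = α + α^p`, `n = α^(p+1)`).
* ORD-C (`OrdCharProp`): valuation side, abstract: in a connected `I`-order on a module with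
  `N + 1` elements, a function `Z` with `Z 0 = 0` and `v(Z a) = 1/N` (`a ≠ 0`) is additive modulo
  `𝔪 · Z w₀`; hence the relation `τ² w₀ + n w₀ = t τ w₀` gives `θ² - t θ + n ∈ 𝔪` for
  `θ = τ(ϖ)/ϖ`, `ϖ = Z w₀`.
  [LB: `(Y a - Y 0)/ϖ ∈ P` for all `Y` of the order: `ValOrbitProp` (block TR) for `x = Y a - Y 0`,
  whose conjugates are among the `Y a' - Y 0`, `a' ≠ 0`.  ADD: `Z(a+a') - Z a - Z a' =
  ∑ (g i a - g i 0)(h i a' - h i 0) ∈ 𝔪 ϖ`.  `τ(τ ϖ) ≡ (τ ϖ)²/ϖ` modulo `𝔪 ϖ` because `τ θ ≡ θ`.]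
-/
import Fermat.Agent.S56.W4.C.S.Defs

set_option autoImplicit false

namespace Fermat.Agent.S56.SS

open Fermat.Agent.F4 ExtCitation Fermat.Agent.FFL Fermat.Agent.FlatMod

local notation "Kb" => AlgebraicClosure ℚ
local notation "GK" => (AlgebraicClosure ℚ ≃ₐ[ℚ] AlgebraicClosure ℚ)

/-- **ORD-M**: the simple module of order `p²` generated by `b 0`. -/
def OrdModuleProp (p : ℕ) [Fact p.Prime] : Prop :=
  ∀ (k : Type) [Field k] [Finite k] (ρbar : ResidualGaloisRep k), (p : k) = 0 →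
  ∀ s : SSTame p ρbar,
    ∃ (W : AddSubgroup ρbar.V) (t n : ℕ),
      s.b 0 ∈ W ∧
      (∀ σ ∈ Ip p, ∀ w ∈ W, ρbar.ρ σ w ∈ W) ∧
      Nat.card W = p ^ 2 ∧
      (∀ N : AddSubgroup ρbar.V, N ≤ W → (∀ σ ∈ Ip p, ∀ x ∈ N, ρbar.ρ σ x ∈ N) →
        N = ⊥ ∨ N = W) ∧
      (∀ σ ∈ Ip p, ∃ j : ℕ, ∀ w ∈ W, ρbar.ρ σ w = (ρbar.ρ s.τ ^ j) w) ∧
      (t : k) = s.ψ s.τ + (s.ψ s.τ) ^ p ∧ (n : k) = (s.ψ s.τ) ^ (p + 1) ∧
      ρbar.ρ s.τ (ρbar.ρ s.τ (s.b 0)) + n • s.b 0 = t • ρbar.ρ s.τ (s.b 0)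

/-- **ORD-C**: the tame character of `ϖ = Z w₀`. -/
def OrdCharProp (p : ℕ) (P : ValuationSubring Kb) : Prop :=
  p.Prime → P.LiesOverPrime p →
  ∀ (W : Type) [AddCommGroup W] [Finite W] (act : GK → W → W) (O : IOrd P W act),
    IsIAction P act →
    ∀ N : ℕ, 0 < N → Nat.card W = N + 1 →
    (∀ f ∈ O.alg, ∀ w : W, f w - f 0 ∈ P.nonunits) →
    ∀ Z ∈ O.alg, Z 0 = 0 → (∀ a : W, a ≠ 0 → ValGE p P (Z a) 1 N ∧ ValLE p P (Z a) 1 N) →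
    ∀ w₀ : W, w₀ ≠ 0 → ∀ τ ∈ P.inertiaSubgroupIn ℚ, ∀ t n : ℕ,
      act τ (act τ w₀) + n • w₀ = t • act τ w₀ →
      ((τ (Z w₀)) ^ 2 - (t : Kb) * τ (Z w₀) * Z w₀ + (n : Kb) * (Z w₀) ^ 2) / (Z w₀) ^ 2
        ∈ P.nonunits

end Fermat.Agent.S56.SS
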