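/-
S56, WALL W4, CASE C, BLOCK S, leaf ORD, ASSEMBLY (helper85):
`OrdProp p` from `T3Prop` (block D), SUB, ORD-M and ORD-C.
-/
import Fermat.Agent.S56.W4.C.S.OrdDefs
import Fermat.Agent.S56.W4.C.S.NoA

set_option autoImplicit false
set_option linter.unusedSectionVars false

namespace Fermat.Agent.S56.SS

open Fermat.Agent.F4 ExtCitation Fermat.Agent.FFL Fermat.Agent.FlatMod

local notation "Kb" => AlgebraicClosure ℚ
local notation "GK" => (AlgebraicClosure ℚ ≃ₐ[ℚ] AlgebraicClosure ℚ)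

variable (p : ℕ) [Fact p.Prime]

/-- the powers of an endomorphism on an eigenvector. -/
theorem ord_pow_apply_eigen {k : Type*} [Field k] {V : Type*} [AddCommGroup V] [Module k V]
    (T : Module.End k V) {v : V} {α : k} (h : T v = α • v) (j : ℕ) :
    (T ^ j) v = α ^ j • v := by
  induction j with
  | zero => rw [pow_zero, pow_zero, Module.End.one_apply, one_smul]
  | succ j ih => rw [pow_succ', Module.End.mul_apply, ih, map_smul, h, smul_smul, pow_succ]

/-- **ORD**, from its inputs. -/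
theorem ordProp_of (hT3 : T3Prop p (Pp p)) (hSub : SubOrdProp p (Pp p))
    (hM : OrdModuleProp p) (hC : OrdCharProp p (Pp p)) : OrdProp p := by
  intro k _ _ ρbar hp2 hchar hflat haug s
  classical
  have hp : p.Prime := Fact.out
  have hP := noa_liesOver p
  have hfinV : Finite ρbar.V := Module.finite_of_finite k
  obtain ⟨W, t, n, hb0, hstab, hcard, hsimple, hcyc, ht, hn, hrel⟩ := hM k ρbar hchar s
  let actW : GK → W → W := fun σ w =>
    if h : σ ∈ Ip p then ⟨ρbar.ρ σ w, hstab σ h w w.2⟩ else w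
  have hactW : ∀ σ ∈ Ip p, ∀ w : W, ((actW σ w : W) : ρbar.V) = ρbar.ρ σ (w : ρbar.V) := by
    intro σ hσ w
    simp only [actW, dif_pos hσ]
  obtain ⟨O, hconn⟩ := hSub hp hP ρbar.V (actOf ρbar) hflat W actW hactW
  have hconn' : ∀ f ∈ O.alg, ∀ w : W, f w - f 0 ∈ (Pp p).nonunits :=
    fun f hf w => hconn w (haug w) f hf
  have hIA : IsIAction (Pp p) actW := by
    refine ⟨fun σ hσ w w' => ?_, fun w => ?_, fun σ hσ τ hτ w => ?_⟩
    · apply Subtype.ext
      rw [AddSubgroup.coe_add, hactW σ hσ, hactW σ hσ, hactW σ hσ, AddSubgroup.coe_add, map_add]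
    · apply Subtype.ext
      rw [hactW 1 (one_mem _), map_one, Module.End.one_apply]
    · apply Subtype.ext
      rw [hactW _ (mul_mem hσ hτ), hactW σ hσ, hactW τ hτ, map_mul, Module.End.mul_apply]
  -- iterates of `τ`
  have hiter : ∀ (j : ℕ) (w : W),
      (((actW s.τ)^[j] w : W) : ρbar.V) = (ρbar.ρ s.τ ^ j) (w : ρbar.V) := by
    intro j w
    induction j with
    | zero => rw [Function.iterate_zero, id_eq, pow_zero, Module.End.one_apply]
    | succ j ih =>
      rw [Function.iterate_succ_apply', hactW s.τ s.τ_mem, ih, pow_succ', Module.End.mul_apply]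
  have hcyc' : ∃ τ₀ ∈ (Pp p).inertiaSubgroupIn ℚ, ∀ σ ∈ (Pp p).inertiaSubgroupIn ℚ, ∃ j : ℕ,
      ∀ w : W, actW σ w = (actW τ₀)^[j] w := by
    refine ⟨s.τ, s.τ_mem, fun σ hσ => ?_⟩
    obtain ⟨j, hj⟩ := hcyc σ hσ
    refine ⟨j, fun w => Subtype.ext ?_⟩
    rw [hactW σ hσ, hiter, hj w w.2]
  have hsimple' : ∀ N : AddSubgroup W,
      (∀ σ ∈ (Pp p).inertiaSubgroupIn ℚ, ∀ x ∈ N, actW σ x ∈ N) → N = ⊥ ∨ N = ⊤ := by
    intro N hN
    have h1 := hsimple (N.map W.subtype) (by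
        rintro _ ⟨x, -, rfl⟩
        exact x.2) (by
        rintro σ hσ _ ⟨x, hx, rfl⟩
        exact ⟨actW σ x, hN σ hσ x hx, hactW σ hσ x⟩)
    rcases h1 with h1 | h1
    · left
      rw [eq_bot_iff]
      intro x hx
      have h2 : (x : ρbar.V) ∈ N.map W.subtype := ⟨x, hx, rfl⟩
      rw [h1, AddSubgroup.mem_bot] at h2
      rw [AddSubgroup.mem_bot]
      exact Subtype.ext h2
    · right
      rw [eq_top_iff]
      intro x _
      have h2 : (x : ρbar.V) ∈ N.map W.subtype := by rw [h1]; exact x.2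
      obtain ⟨y, hy, hyx⟩ := h2
      have : y = x := Subtype.ext hyx
      rwa [← this]
  have hfinW : Finite W := inferInstance
  obtain ⟨htrans, Z, hZ, hZ0, hZval⟩ := hT3 hp hp2 hP W actW O hIA hcard hcyc' hsimple'
  set α : k := s.ψ s.τ with hα
  have hτb : ρbar.ρ s.τ (s.b 0) = α • s.b 0 := s.diag0 s.τ s.τ_mem
  let w₀ : W := ⟨s.b 0, hb0⟩
  have hw₀ : w₀ ≠ 0 := fun h => s.b.ne_zero 0 (congrArg Subtype.val h)
  have hp2pos : 0 < p ^ 2 - 1 := by
    have : 2 ≤ p := hp.two_le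
    have : 4 ≤ p ^ 2 := by nlinarith
    omega
  have hcard' : Nat.card W = (p ^ 2 - 1) + 1 := by rw [hcard]; omega
  refine ⟨{
    b := s.b
    ψ := s.ψ
    diag0 := s.diag0
    diag1 := s.diag1
    fp2 := s.fp2
    τ := s.τ
    τ_mem := s.τ_mem
    gen := s.gen
    ne_zero := s.ne_zero
    ord := ?_
    ϖ := Z w₀
    ϖ_ge := (hZval w₀ hw₀).1
    ϖ_le := (hZval w₀ hw₀).2
    ϖ_fix := ?_
    ϖ_char := ?_ }⟩
  · -- the order of `ψ τ`
    intro m hm hαm
    have hperiod : ∀ j : ℕ, (actW s.τ)^[j] w₀ = (actW s.τ)^[j % m] w₀ := by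
      intro j
      apply Subtype.ext
      rw [hiter, hiter, ord_pow_apply_eigen _ hτb, ord_pow_apply_eigen _ hτb]
      congr 1
      conv_lhs => rw [← Nat.div_add_mod j m, pow_add, pow_mul, hαm, one_pow, one_mul]
    have hsub : {a : W | a ≠ 0} ⊆ Set.range (fun j : Fin m => (actW s.τ)^[(j : ℕ)] w₀) := by
      intro a ha
      obtain ⟨σ, hσ, hσa⟩ := htrans w₀ a hw₀ ha
      obtain ⟨-, hτ₀⟩ := hcyc'
      obtain ⟨j, hj⟩ := hcyc σ hσ
      refine ⟨⟨j % m, Nat.mod_lt j hm⟩, ?_⟩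
      show (actW s.τ)^[j % m] w₀ = a
      rw [← hperiod, ← hσa]
      apply Subtype.ext
      rw [hiter, hactW σ hσ, hj _ hb0]
    have h1 : ({a : W | a ≠ 0} : Set W).ncard ≤ m := by
      calc ({a : W | a ≠ 0} : Set W).ncard
          ≤ (Set.range (fun j : Fin m => (actW s.τ)^[(j : ℕ)] w₀)).ncard :=
            Set.ncard_le_ncard hsub (Set.finite_range _)
        _ ≤ Nat.card (Fin m) := by
            rw [← Set.image_univ]
            calc (_ '' Set.univ).ncard ≤ (Set.univ : Set (Fin m)).ncard :=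
                  Set.ncard_image_le Set.finite_univ
              _ = Nat.card (Fin m) := Set.ncard_univ _
        _ = m := Nat.card_fin m
    have h2 : ({a : W | a ≠ 0} : Set W).ncard = p ^ 2 - 1 := by
      have h3 : ({a : W | a ≠ 0} : Set W) = ({0} : Set W)ᶜ := by
        ext a; simp
      rw [h3, Set.ncard_compl, Set.ncard_singleton, hcard]
    omega
  · -- `ϖ` is fixed by the kernel of `ψ`
    intro σ hσ hψ
    rw [← O.equiv Z hZ σ hσ w₀]
    congr 1
    apply Subtype.ext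
    rw [hactW σ hσ]
    show ρbar.ρ σ (s.b 0) = s.b 0
    rw [s.diag0 σ hσ, hψ, one_smul]
  · -- the tame character
    refine ⟨(t : ℤ), (n : ℤ), by rw [Int.cast_natCast, ht], by rw [Int.cast_natCast, hn], ?_⟩
    have hrel' : actW s.τ (actW s.τ w₀) + n • w₀ = t • actW s.τ w₀ := by
      apply Subtype.ext
      rw [AddSubgroup.coe_add, AddSubgroup.coe_nsmul, AddSubgroup.coe_nsmul,
        hactW s.τ s.τ_mem, hactW s.τ s.τ_mem]
      exact hrel
    have h := hC hp hP W actW O hIA (p ^ 2 - 1) hp2pos hcard' hconn' Z hZ hZ0 hZval w₀ hw₀ s.τ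
      s.τ_mem t n hrel'
    rw [Int.cast_natCast, Int.cast_natCast]
    exact h

end Fermat.Agent.S56.SS
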