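/-
S56, WALL W4, CASE C, BLOCK S, leaf TAME (helper88): if the image of inertia under `ρbar` has no
element of order `p`, then inertia has an eigenvector with `𝔽_p`-valued character or `ρbar` has the
supersingular shape `SSTame`.

Proof: tame inertia (`Lib/TameInertia`): `ρbar(I)` is generated by `g = ρbar τ₀` and
`ρbar(φ) g ρbar(φ)⁻¹ = g ^ p` for a Frobenius element `φ`.  If the characteristic polynomial of
`g` is `(X - α)²`, then `g ^ p = α ^ p` is a scalar, so `g` is a scalar, with `α ^ p = α`.  If it is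
`(X - α)(X - β)`, `α ≠ β`, take an eigenbasis `b₀, b₁`: `ρbar(φ) b₀` is an eigenvector of `g ^ p`
with eigenvalue `α`, so `α ^ p = α` or `β ^ p = α`; likewise `α ^ p = β` or `β ^ p = β`.
-/
import Fermat.Agent.S56.W4.C.S.Defs
import Fermat.Agent.Lib.TameInertia.Local
import Fermat.Agent.S56.W3.TW.Gen
import Fermat.Agent.S56.W3.TW.Asm
import Fermat.Agent.S56.W3.TW.LinAlg
import Fermat.Agent.S56.W3.TW.Lies

set_option autoImplicit false
set_option linter.style.haveILetI false

namespace Fermat.Agent.S56.SS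

open Fermat.Agent.F4 ExtCitation Polynomial Module

local notation "Kb" => AlgebraicClosure ℚ
local notation "GK" => (AlgebraicClosure ℚ ≃ₐ[ℚ] AlgebraicClosure ℚ)

section Core

variable {k V : Type} [Field k] [AddCommGroup V] [Module k V]

/-- Powers of an endomorphism on an eigenvector. -/
theorem tame_pow_eigen (g : Module.End k V) {v : V} {α : k} (h : g v = α • v) (n : ℕ) :
    (g ^ n) v = α ^ n • v := by
  induction n with
  | zero => simp
  | succ n ih =>
    rw [pow_succ, Module.End.mul_apply, h, map_smul, ih, smul_smul, pow_succ, mul_comm]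

/-- The abstract dichotomy: `g` of characteristic polynomial `(X - α)(X - β)` on a plane, conjugate
to `g ^ p` in characteristic `p`. -/
theorem tame_core [Module.Finite k V] (hV : Module.finrank k V = 2) (p : ℕ) [Fact p.Prime]
    (hpk : (p : k) = 0) (g h h' : Module.End k V) (hh : h' * h = 1)
    (hconj : h * g * h' = g ^ p) {α β : k}
    (hg : LinearMap.charpoly g = (X - C α) * (X - C β)) :
    (∃ v : V, v ≠ 0 ∧ ∃ c : k, c ^ p = c ∧ g v = c • v) ∨
    ∃ (b : Basis (Fin 2) k V) (a : k), g (b 0) = a • b 0 ∧ g (b 1) = a ^ p • b 1 ∧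
      a ^ (p ^ 2) = a ∧ a ≠ 0 ∧ a ^ p ≠ a := by
  have hp : p.Prime := Fact.out
  haveI : CharP k p := (CharP.charP_iff_prime_eq_zero hp).2 hpk
  haveI : Nontrivial V := Module.nontrivial_of_finrank_pos (R := k) (by rw [hV]; norm_num)
  have hinj : ∀ v : V, h v = 0 → v = 0 := by
    intro v hv
    have := congrArg (fun f : Module.End k V => f v) hh
    simp only [Module.End.mul_apply, Module.End.one_apply] at this
    rw [hv, map_zero] at this
    exact this.symm
  -- `g ^ p (h v) = h (g v)`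
  have hgp : ∀ v : V, (g ^ p) (h v) = h (g v) := by
    intro v
    rw [← hconj]
    simp only [Module.End.mul_apply]
    have := congrArg (fun f : Module.End k V => f v) hh
    simp only [Module.End.mul_apply, Module.End.one_apply] at this
    rw [this]
  by_cases hαβ : α = β
  · -- scalar case
    subst hαβ
    left
    have hCH : (g - algebraMap k _ α) * (g - algebraMap k _ α) = 0 := by
      have := LinearMap.aeval_self_charpoly g
      rw [hg, map_mul, map_sub, aeval_X, aeval_C] at this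
      exact this
    obtain ⟨v, hv⟩ := exists_ne (0 : V)
    -- `g ^ p = α ^ p`
    have hNp : (g - algebraMap k _ α) ^ p = 0 := by
      have h2 : 2 ≤ p := hp.two_le
      obtain ⟨m, rfl⟩ := Nat.exists_eq_add_of_le h2
      rw [pow_add, pow_two, hCH, zero_mul]
    haveI : CharP (Module.End k V) p :=
      charP_of_injective_algebraMap (FaithfulSMul.algebraMap_injective k (Module.End k V)) p
    have hgpow : g ^ p = algebraMap k _ (α ^ p) := by
      have hcomm : Commute g (algebraMap k (Module.End k V) α) :=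
        (Algebra.commutes α g).symm
      have := sub_pow_char_of_commute (R := Module.End k V) p hcomm
      rw [hNp, ← map_pow] at this
      exact (sub_eq_zero.1 this.symm)
    -- `g` is the scalar `α ^ p`
    have hgs : ∀ w : V, g w = α ^ p • w := by
      intro w
      have h1 := hgp w
      rw [hgpow, Module.algebraMap_end_apply] at h1
      have h2 : h (α ^ p • w) = h (g w) := by rw [map_smul]; exact h1
      have h3 : h (α ^ p • w - g w) = 0 := by rw [map_sub, h2, sub_self]
      exact (sub_eq_zero.1 (hinj _ h3)).symm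
    -- `α ^ p = α`
    have hαp : α ^ p = α := by
      have h1 := congrArg (fun f : Module.End k V => f v) hCH
      simp only [Module.End.mul_apply, LinearMap.sub_apply, Module.algebraMap_end_apply,
        LinearMap.zero_apply, hgs, map_sub, map_smul] at h1
      have h2 : ((α ^ p - α) * (α ^ p - α)) • v = 0 := by
        rw [← h1]
        module
      rcases smul_eq_zero.1 h2 with h3 | h3
      · exact sub_eq_zero.1 (mul_self_eq_zero.1 h3)
      · exact absurd h3 hv
    exact ⟨v, hv, α, hαp, by rw [hgs, hαp]⟩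
  · -- two eigenvalues
    obtain ⟨b, hb0, hb1⟩ := TWLin.exists_eigenbasis hV g hαβ hg
    have key : ∀ (i : Fin 2) (γ : k), g (b i) = γ • b i → α ^ p = γ ∨ β ^ p = γ := by
      intro i γ hi
      have h1 := hgp (b i)
      rw [hi, map_smul] at h1
      have hrep : h (b i) = b.repr (h (b i)) 0 • b 0 + b.repr (h (b i)) 1 • b 1 := by
        conv_lhs => rw [← b.sum_repr (h (b i))]
        rw [Fin.sum_univ_two]
      set x := b.repr (h (b i)) 0
      set y := b.repr (h (b i)) 1
      rw [hrep, map_add, map_smul, map_smul, tame_pow_eigen g hb0, tame_pow_eigen g hb1,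
        smul_add, smul_smul, smul_smul, smul_smul, smul_smul] at h1
      have e0 := congrArg (fun w => b.repr w 0) h1
      have e1 := congrArg (fun w => b.repr w 1) h1
      simp only [TWLin.repr_comb_zero, TWLin.repr_comb_one] at e0 e1
      have hxy : x ≠ 0 ∨ y ≠ 0 := by
        by_contra hcon
        push Not at hcon
        have : h (b i) = 0 := by rw [hrep, hcon.1, hcon.2, zero_smul, zero_smul, add_zero]
        exact b.ne_zero i (hinj _ this)
      rcases hxy with hx | hy
      · left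
        exact mul_left_cancel₀ hx (e0.trans (mul_comm γ x))
      · right
        exact mul_left_cancel₀ hy (e1.trans (mul_comm γ y))
    have k0 := key 0 α hb0
    have k1 := key 1 β hb1
    by_cases ha : α ^ p = α
    · exact Or.inl ⟨b 0, b.ne_zero 0, α, ha, hb0⟩
    by_cases hbb : β ^ p = β
    · exact Or.inl ⟨b 1, b.ne_zero 1, β, hbb, hb1⟩
    have hβα : β ^ p = α := k0.resolve_left ha
    have hαβ' : α ^ p = β := k1.resolve_right hbb
    refine Or.inr ⟨b, α, hb0, by rw [hαβ']; exact hb1, ?_, ?_, ha⟩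
    · rw [pow_two, pow_mul, hαβ', hβα]
    · intro h0
      apply hαβ
      rw [← hαβ', h0, zero_pow hp.ne_zero]

end Core

/-- **TAME**. -/
theorem tameDichProp (p : ℕ) [Fact p.Prime] : TameDichProp p := by
  intro k _ _ ρbar hpk hsplit htame
  have hp : p.Prime := Fact.out
  obtain ⟨U, ⟨F, hFfd, hFst, rfl⟩, hU⟩ := Fermat.Agent.S56.exists_level_ρ_eq_one ρbar
  have hnor : F.fixingSubgroup.Normal := hFst.normal_fixingSubgroup
  let χ : GK →* (Module.End k ρbar.V)ˣ := ρbar.ρ.toHomUnits
  have hχ : ∀ σ : GK, ((χ σ : (Module.End k ρbar.V)ˣ) : Module.End k ρbar.V) = ρbar.ρ σ :=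
    fun σ => rfl
  have hker : ∀ γ : GK, (MonoidHom.id GK) γ ∈ F.fixingSubgroup → χ γ = 1 := fun γ hγ =>
    Units.ext (by rw [hχ]; exact hU γ hγ)
  have hA : (Pp p).LiesOverPrime p := Fermat.Agent.S56.primeLocalPlace_liesOverPrime (pPrime p)
  haveI : Finite ρbar.V := Module.finite_of_finite k
  haveI : Finite (Module.End k ρbar.V) :=
    Finite.of_injective (fun e : Module.End k ρbar.V => (e : ρbar.V → ρbar.V))
      DFunLike.coe_injective
  have hcop : ∀ γ : GK, (MonoidHom.id GK) γ ∈ Ip p → (orderOf (χ γ)).Coprime p := by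
    intro γ hγ
    rw [Nat.coprime_comm, Nat.Prime.coprime_iff_not_dvd hp]
    rintro ⟨m, hm⟩
    have hpos : 0 < orderOf (χ γ) := orderOf_pos _
    have hm0 : 0 < m := by
      rcases Nat.eq_zero_or_pos m with h0 | h0
      · rw [h0, mul_zero] at hm; omega
      · exact h0
    have hlt : m < orderOf (χ γ) := by
      rw [hm]
      have := hp.two_le
      nlinarith
    have hne : χ γ ^ m ≠ 1 := pow_ne_one_of_lt_orderOf hm0.ne' hlt
    apply hne
    have hmem : γ ^ m ∈ Ip p := Subgroup.pow_mem _ hγ m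
    have h1 : (ρbar.ρ (γ ^ m)) ^ p ^ 1 = 1 := by
      rw [pow_one, ← map_pow, ← pow_mul, mul_comm, ← hm, ← hχ, map_pow, pow_orderOf_eq_one]
      rfl
    have h2 := htame (γ ^ m) hmem 1 h1
    apply Units.ext
    rw [← map_pow, hχ, h2]
    rfl
  obtain ⟨⟨τ₀, hτ₀, hgen⟩, hfrob⟩ := Fermat.Agent.TameInertia.tame_inertia_hom
    (MonoidHom.id GK) χ F hFfd hnor hker p hp (Pp p) hA hcop
  obtain ⟨φ, hφ⟩ := Fermat.Agent.S56.TWGen.exists_isFrobeniusAt (Pp p) p hp hA
  have hconj := hfrob φ hφ τ₀ hτ₀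
  have hconj' : ρbar.ρ φ * ρbar.ρ τ₀ * ρbar.ρ φ⁻¹ = ρbar.ρ τ₀ ^ p := by
    have := congrArg Units.val hconj
    rw [hχ, map_mul, map_mul] at this
    rw [this]
    rfl
  have hgen' : ∀ σ ∈ Ip p, ∃ n : ℕ, ρbar.ρ σ = ρbar.ρ τ₀ ^ n := by
    intro σ hσ
    obtain ⟨n, hn⟩ := hgen σ hσ
    refine ⟨n, ?_⟩
    have := congrArg Units.val hn
    rw [hχ] at this
    rw [this]
    rfl
  obtain ⟨α, β, hαβ⟩ := hsplit τ₀
  rcases tame_core ρbar.finrank_eq p hpk (ρbar.ρ τ₀) (ρbar.ρ φ) (ρbar.ρ φ⁻¹)
    (by rw [← map_mul, inv_mul_cancel, map_one]) hconj' hαβ with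
    ⟨v, hv, c, hc, hgv⟩ | ⟨b, a, hb0, hb1, ha2, ha0, hap⟩
  · left
    refine ⟨v, hv, fun σ hσ => ?_⟩
    obtain ⟨n, hn⟩ := hgen' σ hσ
    refine ⟨c ^ n, ?_, ?_⟩
    · rw [← pow_mul, mul_comm, pow_mul, hc]
    · rw [hn, tame_pow_eigen _ hgv]
  · right
    have hψ : ∀ (σ : GK) (n : ℕ), ρbar.ρ σ = ρbar.ρ τ₀ ^ n →
        b.repr (ρbar.ρ σ (b 0)) 0 = a ^ n := by
      intro σ n hn
      rw [hn, tame_pow_eigen _ hb0, map_smul, Finsupp.smul_apply, Basis.repr_self,
        Finsupp.single_eq_same, smul_eq_mul, mul_one]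
    refine ⟨{ b := b
              ψ := fun σ => b.repr (ρbar.ρ σ (b 0)) 0
              diag0 := ?_
              diag1 := ?_
              fp2 := ?_
              τ := τ₀
              τ_mem := hτ₀
              gen := ?_
              ne_zero := ?_
              not_fp := ?_ }⟩
    · intro σ hσ
      obtain ⟨n, hn⟩ := hgen' σ hσ
      show ρbar.ρ σ (b 0) = b.repr (ρbar.ρ σ (b 0)) 0 • b 0
      rw [hψ σ n hn, hn, tame_pow_eigen _ hb0]
    · intro σ hσ
      obtain ⟨n, hn⟩ := hgen' σ hσ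
      show ρbar.ρ σ (b 1) = (b.repr (ρbar.ρ σ (b 0)) 0) ^ p • b 1
      rw [hψ σ n hn, hn, tame_pow_eigen _ hb1, ← pow_mul, ← pow_mul, mul_comm]
    · intro σ hσ
      obtain ⟨n, hn⟩ := hgen' σ hσ
      show (b.repr (ρbar.ρ σ (b 0)) 0) ^ (p ^ 2) = b.repr (ρbar.ρ σ (b 0)) 0
      rw [hψ σ n hn, ← pow_mul, mul_comm, pow_mul, ha2]
    · intro σ hσ
      obtain ⟨n, hn⟩ := hgen' σ hσ
      refine ⟨n, ?_⟩
      show b.repr (ρbar.ρ σ (b 0)) 0 = (b.repr (ρbar.ρ τ₀ (b 0)) 0) ^ n
      rw [hψ σ n hn, hψ τ₀ 1 (pow_one _).symm, pow_one]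
    · show b.repr (ρbar.ρ τ₀ (b 0)) 0 ≠ 0
      rw [hψ τ₀ 1 (pow_one _).symm, pow_one]
      exact ha0
    · show (b.repr (ρbar.ρ τ₀ (b 0)) 0) ^ p ≠ b.repr (ρbar.ρ τ₀ (b 0)) 0
      rw [hψ τ₀ 1 (pow_one _).symm, pow_one]
      exact hap

end Fermat.Agent.S56.SS
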