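/-
S56, WALL W4, CASE C, BLOCK S, leaf WILD (helper87): the elements of `q`-power order of the image
of inertia form a subgroup.

* `wild_exists_subgroup_finite` : finite level (setting of `Lib/TameInertia`): the elements of
  `q`-power order of a subgroup of the inertia group are the kernel of the tame character.
* `wildSubProp : WildSubProp`.
-/
import Fermat.Agent.S56.W4.C.S.Defs
import Fermat.Agent.Lib.TameInertia.Local

set_option autoImplicit false

namespace Fermat.Agent.S56.SS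

open NumberField Fermat.Agent.FrobExists Fermat.Agent.KFin Fermat.Agent.TameInertia
open scoped Pointwise

attribute [local instance] isAlgebraic_Qb isAlgClosure_Qb

section Finite

variable {R : Type*} [CommRing R] [IsDedekindDomain R] {G : Type*} [Group G] [Finite G]
  [MulSemiringAction G R] [FaithfulSMul G R]

/-- Finite level: the elements of `q`-power order of a group of inertia elements form a subgroup
(the kernel of the tame character). -/
theorem wild_exists_subgroup_finite (P : Ideal R) (hP : P.IsMaximal) (hP0 : P ≠ ⊥) (q : ℕ)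
    (hq : q.Prime) (hqP : (q : R) ∈ P) (Ibar : Subgroup G)
    (hI : ∀ σ ∈ Ibar, ∀ x : R, σ • x - x ∈ P) :
    ∃ W : Subgroup G, ∀ σ : G, σ ∈ W ↔ σ ∈ Ibar ∧ ∃ a : ℕ, σ ^ q ^ a = 1 := by
  obtain ⟨π, hπ, hπ2⟩ := SetLike.exists_of_lt (Ideal.pow_lt_self P hP0 hP.ne_top 2 le_rfl)
  have hex : ∀ σ : Ibar, ∃ u : R, IsTameVal P π (σ : G) u :=
    fun σ => exists_isTameVal hP hP0 hπ hπ2 (hI σ σ.2)
  let θ : Ibar →* R ⧸ P :=
    { toFun := fun σ => Ideal.Quotient.mk P (hex σ).choose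
      map_one' := by
        rw [← map_one (Ideal.Quotient.mk P), Ideal.Quotient.eq]
        exact (hex 1).choose_spec.unique hP hπ hπ2 (isTameVal_one P π)
      map_mul' := by
        intro σ τ
        rw [← map_mul, Ideal.Quotient.eq]
        exact (hex (σ * τ)).choose_spec.unique hP hπ hπ2
          ((hex σ).choose_spec.mul hP hP0 hπ hπ2 (hI σ σ.2) (hI τ τ.2) (hex τ).choose_spec) }
  have hθ : ∀ s : Ibar, θ s = Ideal.Quotient.mk P (hex s).choose := fun _ => rfl
  refine ⟨θ.ker.map Ibar.subtype, fun σ => ?_⟩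
  constructor
  · rintro ⟨s, hs, rfl⟩
    refine ⟨s.2, ?_⟩
    rw [SetLike.mem_coe, MonoidHom.mem_ker, hθ] at hs
    have h1 : (hex s).choose - 1 ∈ P := by
      rw [← Ideal.Quotient.eq, map_one]
      exact hs
    exact exists_pow_prime_pow_eq_one hP hP0 hπ hπ2 q hq hqP (hI s s.2) (hex s).choose_spec h1
  · rintro ⟨hσ, a, ha⟩
    refine ⟨⟨σ, hσ⟩, ?_, rfl⟩
    rw [SetLike.mem_coe, MonoidHom.mem_ker]
    have h1 : θ ⟨σ, hσ⟩ ^ q ^ a = 1 := by
      rw [← map_pow]
      have h0 : (⟨σ, hσ⟩ : Ibar) ^ q ^ a = 1 := Subtype.ext (by simpa using ha)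
      rw [h0, map_one]
    let _ : Field (R ⧸ P) := Ideal.Quotient.field P
    have : Fact q.Prime := ⟨hq⟩
    have : CharP (R ⧸ P) q := (CharP.charP_iff_prime_eq_zero hq).mpr (by
      rw [← map_natCast (Ideal.Quotient.mk P), Ideal.Quotient.eq_zero_iff_mem]
      exact hqP)
    have h2 : (θ ⟨σ, hσ⟩ - 1) ^ q ^ a = 0 := by
      rw [sub_pow_char_pow, one_pow, h1, sub_self]
    exact sub_eq_zero.mp (pow_eq_zero_iff (pow_ne_zero _ hq.ne_zero) |>.mp h2)

end Finite

local notation "Kb" => AlgebraicClosure ℚ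
local notation "GK" => (AlgebraicClosure ℚ ≃ₐ[ℚ] AlgebraicClosure ℚ)

/-- **WILD**: the elements of `q`-power order of the image of inertia form a subgroup. -/
theorem wildSubProp : WildSubProp := by
  intro q hq A hA H _ χ hlev
  obtain ⟨L₀, hfd₀, hker₀⟩ := hlev
  have hGal : IsGalois ℚ Qb := isGalois_Qb
  have : Normal ℚ Qb := IsGalois.to_normal
  let L : IntermediateField ℚ Qb := IntermediateField.normalClosure ℚ L₀ Qb
  have hfd : FiniteDimensional ℚ L := normalClosure.is_finiteDimensional ℚ L₀ Qb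
  have hnormal : Normal ℚ L := normalClosure.normal ℚ L₀ Qb
  have hle : L₀ ≤ L := IntermediateField.le_normalClosure L₀
  have hker : ∀ σ : GQ, σ ∈ L.fixingSubgroup → χ σ = 1 := by
    intro σ hσ
    apply hker₀
    intro x hx
    exact (IntermediateField.mem_fixingSubgroup_iff L σ).mp hσ x (hle hx)
  let rL : GQ →* (L ≃ₐ[ℚ] L) := AlgEquiv.restrictNormalHom L
  have hkerL : rL.ker = L.fixingSubgroup :=
    @IntermediateField.restrictNormalHom_ker ℚ Qb _ _ _ L hnormal
  have hker' : rL.ker ≤ χ.ker := by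
    intro γ hγ
    rw [MonoidHom.mem_ker]
    apply hker
    rw [← hkerL]
    exact hγ
  have hnf : NumberField L := { to_charZero := inferInstance, to_finiteDimensional := hfd }
  have hfaith : FaithfulSMul (L ≃ₐ[ℚ] L) (𝓞 L) := faithfulSMul_ringOfIntegers L
  let ι : 𝓞 L →+* A :=
    { toFun := fun x => ⟨((x : L) : Qb), mem_valuationSubring_of_isIntegral A
        (x.isIntegral_coe.map (IsScalarTower.toAlgHom ℤ L Qb))⟩
      map_one' := rfl
      map_mul' := fun _ _ => rfl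
      map_zero' := rfl
      map_add' := fun _ _ => rfl }
  let P : Ideal (𝓞 L) := Ideal.comap ι (IsLocalRing.maximalIdeal A)
  have hPprime : P.IsPrime := Ideal.comap_isPrime _ _
  have hmemP : ∀ y : 𝓞 L, y ∈ P ↔ (((y : L) : Qb)) ∈ A.nonunits := by
    intro y
    rw [Ideal.mem_comap, ← ValuationSubring.coe_mem_nonunits_iff]
    rfl
  have hmemA : ∀ y : 𝓞 L, (((y : L) : Qb)) ∈ A := fun y => (ι y).2
  have hqP : ((q : ℕ) : 𝓞 L) ∈ P := by
    rw [hmemP]
    have : (((q : 𝓞 L) : L) : Qb) = (q : Qb) := by simp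
    rw [this]
    exact hA
  have hP0 : P ≠ ⊥ := by
    intro h
    rw [h, Ideal.mem_bot] at hqP
    exact hq.ne_zero (by exact_mod_cast hqP)
  have hPmax : P.IsMaximal := hPprime.isMaximal hP0
  have hcoe : ∀ (σ : GQ) (x : 𝓞 L), ((((rL σ) • x : 𝓞 L) : L) : Qb) = σ ((x : L) : Qb) := by
    intro σ x
    exact AlgEquiv.restrictNormal_commutes σ L (x : L)
  let Ibar : Subgroup (L ≃ₐ[ℚ] L) := (A.inertiaSubgroupIn ℚ).map rL
  have hI : ∀ s ∈ Ibar, ∀ x : 𝓞 L, s • x - x ∈ P := by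
    rintro _ ⟨γ, hγ, rfl⟩ x
    rw [hmemP]
    have h1 := ((kf_mem_inertiaSubgroupIn_iff A γ).mp hγ).2 _ (hmemA x)
    rw [← hcoe γ x] at h1
    exact h1
  obtain ⟨W, hW⟩ := wild_exists_subgroup_finite P hPmax hP0 q hq hqP Ibar hI
  refine ⟨((A.inertiaSubgroupIn ℚ) ⊓ W.comap rL).map χ, fun h => ?_⟩
  constructor
  · rintro ⟨σ, ⟨hσI, hσW⟩, rfl⟩
    obtain ⟨-, a, ha⟩ := (hW _).mp hσW
    refine ⟨⟨a, ?_⟩, σ, hσI, rfl⟩
    rw [← map_pow, ← MonoidHom.mem_ker]
    apply hker'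
    rw [MonoidHom.mem_ker, map_pow]
    exact ha
  · rintro ⟨⟨a, ha⟩, σ, hσI, rfl⟩
    have hx : rL σ ∈ Ibar := ⟨σ, hσI, rfl⟩
    obtain ⟨b, m, hm, hn⟩ :=
      Nat.exists_eq_pow_mul_and_not_dvd (orderOf_pos (rL σ)).ne' q hq.ne_one
    have hcop : Nat.Coprime m (q ^ a) :=
      Nat.Coprime.pow_right a ((Nat.Prime.coprime_iff_not_dvd hq).mpr hm).symm
    obtain ⟨N, hN0, hN1⟩ := Nat.chineseRemainder hcop 0 1
    have hmN : m ∣ N := (Nat.modEq_zero_iff_dvd).mp hN0
    refine ⟨σ ^ N, ⟨Subgroup.pow_mem _ hσI N, ?_⟩, ?_⟩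
    · show rL (σ ^ N) ∈ W
      rw [map_pow, hW]
      refine ⟨Ibar.pow_mem hx N, b, ?_⟩
      rw [← pow_mul]
      apply orderOf_dvd_iff_pow_eq_one.mp
      rw [hn, mul_comm N]
      exact Nat.mul_dvd_mul_left _ hmN
    · rw [map_pow]
      have h1 : orderOf (χ σ) ∣ q ^ a := orderOf_dvd_of_pow_eq_one ha
      have h2 : N ≡ 1 [MOD orderOf (χ σ)] := hN1.of_dvd h1
      have := pow_eq_pow_iff_modEq.mpr h2
      rw [this, pow_one]

end Fermat.Agent.S56.SS
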