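/-
S56 W4 case C, block S: FINAL assembly.  `sStructProp p : SStructProp p`, unconditional.

Leaves: FIX (`noFixedProp`), SUB (`subOrdProp`), WILD (`wildSubProp`), FPC (`fpCharProp`),
TAME (`tameDichProp`), DICH (`dichProp_of`), NOA (`noFpEigenProp_of`), ORD (`ordProp_of`),
ORD-M (`ordModuleProp`), ORD-C (`ordCharProp_of`), the TR leaf `valOrbitProp` and the
block-D results `t3Prop`, `orderPProp`.
-/
import Fermat.Agent.S56.W4.C.S.Main
import Fermat.Agent.S56.W4.C.S.Fix
import Fermat.Agent.S56.W4.C.S.Sub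
import Fermat.Agent.S56.W4.C.S.NoA
import Fermat.Agent.S56.W4.C.S.Ord
import Fermat.Agent.S56.W4.C.S.Ord.Char
import Fermat.Agent.S56.W4.C.S.Ord.Module
import Fermat.Agent.S56.W4.C.S.Dich
import Fermat.Agent.S56.W4.C.S.FpChar
import Fermat.Agent.S56.W4.C.S.Tame
import Fermat.Agent.S56.W4.C.S.Wild
import Fermat.Agent.S56.W4.C.TR.Val
import Fermat.Agent.S56.W4.C.D.Final

set_option autoImplicit false

namespace Fermat.Agent.S56.SS

local notation "Kb" => AlgebraicClosure ℚ

/-- `DichProp p`, unconditional (WILD + FPC + TAME + DICH). -/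
theorem dichProp (p : ℕ) [Fact p.Prime] : DichProp p :=
  dichProp_of p wildSubProp (fpCharProp p) (tameDichProp p)

/-- `OrdCharProp p P`, unconditional (ORD-C + the TR leaf `valOrbitProp`). -/
theorem ordCharProp (p : ℕ) (P : ValuationSubring Kb) : OrdCharProp p P :=
  ordCharProp_of p P (valOrbitProp p P)

/-- `NoFpEigenProp p`, unconditional (NOA + FIX + SUB + block D). -/
theorem noFpEigenProp (p : ℕ) [Fact p.Prime] : NoFpEigenProp p :=
  noFpEigenProp_of p (orderPProp p (Pp p)) (noFixedProp p (Pp p)) (subOrdProp p (Pp p))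

/-- `OrdProp p`, unconditional (ORD + SUB + ORD-M + ORD-C + block D). -/
theorem ordProp (p : ℕ) [Fact p.Prime] : OrdProp p :=
  ordProp_of p (t3Prop p (Pp p)) (subOrdProp p (Pp p)) (ordModuleProp p) (ordCharProp p (Pp p))

/-- **Block S closed**: the structure theorem `SStructProp p`, unconditional. -/
theorem sStructProp (p : ℕ) [Fact p.Prime] : SStructProp p :=
  sStructProp_of_leaves p (dichProp p) (noFpEigenProp p) (ordProp p)

end Fermat.Agent.S56.SS
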