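/-
S56, WALL W4, CASE C, BLOCK S, leaf SUB (helper32): the restriction of the `R'`-span of a Hopf
order to a subgroup `N` stable under inertia is an `I`-order on `N`, and its functions are
`≡ f 0` modulo `𝔪_P` at the points of `augI`.

Proof: `spanB P O` (Lib/FFL/Span.lean, EtMax.lean) is an `R'`-subalgebra of `W → ℚ̄`, finitely
generated, inertia-equivariant, `P`-valued, comultiplication-closed, stable under `w ↦ -w`, and
it spans all functions over `ℚ̄`; all of this passes to the restrictions to `N`.  The congruence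
is `augI ⊆ redKer` (Lib/FFL/Red.lean) and `spanB_sub_mem_nonunits`.
-/
import Fermat.Agent.S56.W4.C.S.Defs
import Fermat.Agent.Lib.FFL.EtMax

set_option autoImplicit false

namespace Fermat.Agent.S56.SS

open Fermat.Agent.F4 ExtCitation Fermat.Agent.FFL Fermat.Agent.FlatMod

local notation "Kb" => AlgebraicClosure ℚ
local notation "GK" => (AlgebraicClosure ℚ ≃ₐ[ℚ] AlgebraicClosure ℚ)

section

variable {p : ℕ} {W : Type*} [AddCommGroup W] {act : GK → W → W}

/-- The `R'`-span of a Hopf order, as a subalgebra. -/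
noncomputable def subSpanAlg (P : ValuationSubring Kb) (O : HopfOrder p W act) :
    Subalgebra (inertiaRing P) (W → Kb) where
  carrier := spanB P O
  mul_mem' := fun hf hg => spanB_mul_mem P O hf hg
  add_mem' := fun hf hg => (spanB P O).add_mem hf hg
  algebraMap_mem' := fun r => spanB_const_mem P O r.2

theorem mem_subSpanAlg (P : ValuationSubring Kb) (O : HopfOrder p W act) (f : W → Kb) :
    f ∈ subSpanAlg P O ↔ f ∈ spanB P O := Iff.rfl

/-- Restriction of functions to a subgroup, as a homomorphism of `R'`-algebras. -/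
noncomputable def subRestr (P : ValuationSubring Kb) (N : AddSubgroup W) :
    (W → Kb) →ₐ[inertiaRing P] (N → Kb) :=
  AlgHom.pi (fun n : N => Pi.evalAlgHom (inertiaRing P) (fun _ : W => Kb) (n : W))

theorem subRestr_apply (P : ValuationSubring Kb) (N : AddSubgroup W) (g : W → Kb) (n : N) :
    subRestr P N g n = g (n : W) := rfl

/-- The restrictions to `N` of the functions of the `R'`-span of a Hopf order. -/
noncomputable def subAlg (P : ValuationSubring Kb) (O : HopfOrder p W act) (N : AddSubgroup W) :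
    Subalgebra (inertiaRing P) (N → Kb) :=
  (subSpanAlg P O).map (subRestr P N)

theorem mem_subAlg (P : ValuationSubring Kb) (O : HopfOrder p W act) (N : AddSubgroup W)
    (f : N → Kb) : f ∈ subAlg P O N ↔ ∃ g ∈ spanB P O, f = fun n : N => g (n : W) := by
  constructor
  · rintro ⟨g, hg, rfl⟩
    exact ⟨g, hg, rfl⟩
  · rintro ⟨g, hg, rfl⟩
    exact ⟨g, hg, rfl⟩

theorem sub_fg [Fact p.Prime] (P : ValuationSubring Kb) (hP : P.LiesOverPrime p)
    (O : HopfOrder p W act) (N : AddSubgroup W) :
    (Subalgebra.toSubmodule (subAlg P O N)).FG := by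
  have h1 : Subalgebra.toSubmodule (subAlg P O N) =
      (spanB P O).map (subRestr P N).toLinearMap := by
    ext f
    rw [Subalgebra.mem_toSubmodule, mem_subAlg, Submodule.mem_map]
    constructor
    · rintro ⟨g, hg, rfl⟩
      exact ⟨g, hg, rfl⟩
    · rintro ⟨g, hg, rfl⟩
      exact ⟨g, hg, rfl⟩
  rw [h1]
  refine Submodule.FG.map _ ?_
  rw [spanB_eq_span_range P hP O]
  exact Submodule.fg_span (Set.finite_range _)

theorem sub_span_top [Fact p.Prime] (P : ValuationSubring Kb) (O : HopfOrder p W act)
    (N : AddSubgroup W) :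
    Submodule.span Kb ((subAlg P O N : Subalgebra (inertiaRing P) (N → Kb)) : Set (N → Kb)) =
      ⊤ := by
  classical
  rw [eq_top_iff]
  intro f _
  obtain ⟨a, ha⟩ := exists_coeff O
    (fun w : W => if h : w ∈ N then f ⟨w, h⟩ else 0)
  have h1 : f = ∑ i, a i • (fun n : N => spanFun O i (n : W)) := by
    funext n
    have h2 := congrFun ha (n : W)
    rw [dif_pos n.2] at h2
    rw [show f n = f ⟨(n : W), n.2⟩ from rfl, h2]
    simp only [Finset.sum_apply, Pi.smul_apply]
  rw [h1]
  refine Submodule.sum_mem _ (fun i _ => Submodule.smul_mem _ _ (Submodule.subset_span ?_))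
  exact (mem_subAlg P O N _).2 ⟨spanFun O i, subset_spanB P O (spanFun_mem O i), rfl⟩

end

/-- **SUB**. -/
theorem subOrdProp (p : ℕ) (P : ValuationSubring Kb) : SubOrdProp p P := by
  intro hp hP W _ act hflat N actN hN
  have : Fact p.Prime := ⟨hp⟩
  obtain ⟨O⟩ := nonempty_hopfOrder_of_isFlat hflat
  refine ⟨{ alg := subAlg P O N
            fg := sub_fg P hP O N
            equiv := ?_
            int := ?_
            comul := ?_
            neg := ?_
            span := sub_span_top P O N }, ?_⟩
  · intro f hf σ hσ n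
    obtain ⟨g, hg, rfl⟩ := (mem_subAlg P O N f).1 hf
    show g ((actN σ n : N) : W) = σ (g (n : W))
    rw [hN σ hσ n]
    exact spanB_equiv P O hg σ hσ (n : W)
  · intro f hf n
    obtain ⟨g, hg, rfl⟩ := (mem_subAlg P O N f).1 hf
    exact spanB_mem P hP O hg (n : W)
  · intro f hf
    obtain ⟨g, hg, rfl⟩ := (mem_subAlg P O N f).1 hf
    obtain ⟨m, g', h', hg', hh', hgh⟩ := spanB_comulClosed P O g hg
    refine ⟨m, fun i n => g' i (n : W), fun i n => h' i (n : W),
      fun i => (mem_subAlg P O N _).2 ⟨g' i, hg' i, rfl⟩,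
      fun i => (mem_subAlg P O N _).2 ⟨h' i, hh' i, rfl⟩, fun n n' => ?_⟩
    show g (((n + n' : N)) : W) = _
    rw [AddSubgroup.coe_add, hgh]
  · intro f hf
    obtain ⟨g, hg, rfl⟩ := (mem_subAlg P O N f).1 hf
    refine (mem_subAlg P O N _).2 ⟨fun w => g (-w), spanB_comp_neg_mem P O hg, ?_⟩
    funext n
    show g (((-n : N)) : W) = g (-(n : W))
    rw [AddSubgroup.coe_neg]
  · intro n hn f hf
    obtain ⟨g, hg, rfl⟩ := (mem_subAlg P O N f).1 hf
    show g (n : W) - g (((0 : N)) : W) ∈ P.nonunits
    rw [AddSubgroup.coe_zero]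
    exact spanB_sub_mem_nonunits P O hg (augI_subset_redKer O hP hn)

end Fermat.Agent.S56.SS
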